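/-
S15, leaf FG = `Stmt_redFG p` (helper11): interfaces.

`red : J₀(p)(ℚ̄) → Pic⁰(F~)` is the prelude's `reductionModL A p`, `F~ = modularFunctionFieldFullC k p`,
`k = kV A` the residue field of `A`.  Route:
* (BRIDGE) `Stmt_FGbridge p`: there is a semilinear automorphism `φ` of `F~ / k` (the
  coefficientwise Frobenius `a ↦ a ^ ℓ`) fixing a place and a transcendental element, such that
  the reduction of every rational divisor class is `φ`-fixed (equivariance of the place
  reduction under a Frobenius element of the decomposition group of `A`: G-RED `stmt_EQ`).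
* (FIN) `H11.fin_fixed`: the `φ`-fixed classes of degree `0` form a finite set
  (`S15/FG/H11_Fin.lean`).
-/
import Fermat.Agent.S15.Defs
import Fermat.Agent.RED.Defs
import Fermat.Agent.S28.H73_GaussV

set_option autoImplicit false
set_option synthInstance.maxHeartbeats 400000

noncomputable section

open AlgebraicCurve ModularCurve Fermat.Agent.S28.H73 Fermat.Agent.RED

namespace Fermat.Agent.S15.FG

/-- (FG-BRIDGE) the reductions of the rational points of `J₀(p)` are fixed by a Frobenius `φ` of
the reduced function field, and `φ` fixes a place and a non-constant function. -/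
def Stmt_FGbridge (p : ℕ) : Prop :=
  ∀ ℓ : ℕ, ℓ.Prime → ℓ ≠ p → ∀ A : ValuationSubring (AlgebraicClosure ℚ), A.LiesOverPrime ℓ →
  ∀ h : ReductionInputsModL A p,
    IsFF (kV A) ↥(modularFunctionFieldFullC (kV A) p) ∧
    ∃ (φ : SemilinearAut (kV A) ↥(modularFunctionFieldFullC (kV A) p))
      (P₀ : Place (kV A) ↥(modularFunctionFieldFullC (kV A) p))
      (x : ↥(modularFunctionFieldFullC (kV A) p)),
      (∀ a : kV A, SemilinearAut.baseAut φ a = a ^ ℓ) ∧ φ • P₀ = P₀ ∧
      Transcendental (kV A) x ∧ φ • x = x ∧
      ∀ D : Divisor.degZero (K := AlgebraicClosure ℚ) (F := ↥(modularFunctionFieldBar p)),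
        Pic0.mk D ∈ ratPts p →
        φ • Finsupp.mapDomain (placeReductionModL h)
              (D : Divisor (AlgebraicClosure ℚ) ↥(modularFunctionFieldBar p))
            - Finsupp.mapDomain (placeReductionModL h)
              (D : Divisor (AlgebraicClosure ℚ) ↥(modularFunctionFieldBar p))
          ∈ Divisor.principal (K := kV A) (F := ↥(modularFunctionFieldFullC (kV A) p))

end Fermat.Agent.S15.FG
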