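/-
S15, leaf FG (helper11), part 1: the abstract finiteness theorem.

`F / K` a function field with the basic facts on places (`H42.Hyp`) and Riemann's inequality;
`φ` a semilinear automorphism of `F / K` such that
* `φ` fixes a place `P₀` and a transcendental element `x`,
* every power `≥ 1` of the base automorphism of `φ` has finitely many fixed points in `K`.
Then the divisor classes of degree `0` which are fixed by `φ` form a finite set (`fin_fixed`).

Proof: for a class `c` let `n` be minimal with `l(c + n P₀) ≥ 1`; then `l(c + n P₀) = 1`,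
`n ≤ g`, and the unique effective divisor `D ∼ c + n P₀` is `φ`-fixed; the `φ`-fixed effective
divisors of degree `n` are supported on the finitely many places which are fixed by `φ^m`,
`1 ≤ m ≤ n`.
-/
import Fermat.Agent.RED.H42_Riemann
import Fermat.Prelude.Def_AlgebraicCurve_BaseChangeGalois

set_option autoImplicit false

noncomputable section

open AlgebraicCurve IntermediateField WithZero

namespace Fermat.Agent.S15.FG.H11

open Fermat.Agent.RED.H42

variable {K F : Type*} [Field K] [Field F] [Algebra K F]

local notation "L" => riemannRochSpace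

/-! ### Orders and valuations -/

theorem adicValuation_lt_one_iff_ord {v : Place K F} {f : F} (hf : f ≠ 0) :
    v.adicValuation f < 1 ↔ 0 < v.ord f := by
  rw [v.adicValuation_eq_exp_neg_ord hf, ← exp_zero, exp_lt_exp]
  omega

theorem adicValuation_le_one_iff_ord {v : Place K F} {f : F} (hf : f ≠ 0) :
    v.adicValuation f ≤ 1 ↔ 0 ≤ v.ord f := by
  rw [v.adicValuation_eq_exp_neg_ord hf, ← exp_zero, exp_le_exp]
  omega

theorem ord_algebraMap_eq_zero (v : Place K F) (c : K) : v.ord (algebraMap K F c) = 0 := by
  rcases eq_or_ne c 0 with rfl | hc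
  · simp
  · have h := adicValuation_algebraMap v hc
    have hne : algebraMap K F c ≠ 0 := by
      intro h0
      rw [h0, map_zero] at h
      exact zero_ne_one h
    rw [v.adicValuation_eq_exp_neg_ord hne, ← exp_zero] at h
    have := exp_injective h
    omega

/-! ### Uniqueness of the effective divisor when `l(D) = 1` -/

theorem eq_of_finrank_eq_one {D D' : Divisor K F} (hD : 0 ≤ D) (hD' : 0 ≤ D')
    (hl : Module.finrank K (L D) = 1) (hp : D' - D ∈ Divisor.principal (K := K) (F := F)) :
    D' = D := by
  obtain ⟨h, hh0, hh⟩ := hp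
  have hhL : h ∈ L D := by
    rw [mem_riemannRochSpace_iff]
    intro v
    right
    have h1 := hh v
    have h2 := Finsupp.le_def.mp hD' v
    rw [Finsupp.sub_apply] at h1
    simp only [Finsupp.coe_zero, Pi.zero_apply] at h2
    omega
  have h1L : (1 : F) ∈ L D := one_mem_L hD
  have h10 : (⟨1, h1L⟩ : L D) ≠ 0 := fun h0 => one_ne_zero (congrArg Subtype.val h0)
  obtain ⟨c, hc⟩ := (finrank_eq_one_iff_of_nonzero' (⟨1, h1L⟩ : L D) h10).mp hl ⟨h, hhL⟩
  have hc' : h = algebraMap K F c := by
    have := congrArg Subtype.val hc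
    simp only [Submodule.coe_smul] at this
    rw [← this, Algebra.smul_def, mul_one]
  ext v
  have h1 := hh v
  rw [hc', ord_algebraMap_eq_zero, Finsupp.sub_apply] at h1
  omega

/-! ### The minimal effective representative -/

theorem degree_add_nsmul_single (H : Hyp K F) (P₀ : Place K F) (C : Divisor K F) (n : ℕ) :
    Divisor.degree (C + n • Finsupp.single P₀ 1) = Divisor.degree C + n := by
  rw [map_add, map_nsmul, Divisor.degree_single, H.deg_one P₀]
  simp

/-- Every class of degree `0` contains `D - n P₀` with `D ≥ 0` of degree `n ≤ g` and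
`l(D) = 1`. -/
theorem exists_effective (H : Hyp K F) (g : ℕ)
    (hg : ∀ D : Divisor K F, Divisor.degree D + 1 - g ≤ (Module.finrank K (L D) : ℤ))
    (P₀ : Place K F) (C : Divisor K F) (hC : Divisor.degree C = 0) :
    ∃ (n : ℕ) (D : Divisor K F), n ≤ g ∧ 0 ≤ D ∧ Divisor.degree D = n ∧
      Module.finrank K (L D) = 1 ∧
      D - (C + n • Finsupp.single P₀ 1) ∈ Divisor.principal (K := K) (F := F) := by
  classical
  have hex : ∃ n : ℕ, L (C + n • Finsupp.single P₀ 1) ≠ ⊥ := by
    refine ⟨g, fun hbot => ?_⟩
    have h1 := hg (C + g • Finsupp.single P₀ 1)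
    rw [degree_add_nsmul_single H, hC, hbot, finrank_bot] at h1
    simp at h1
  set n := Nat.find hex with hn
  have hne : L (C + n • Finsupp.single P₀ 1) ≠ ⊥ := Nat.find_spec hex
  have hng : n ≤ g := Nat.find_min' hex (by
    intro hbot
    have h1 := hg (C + g • Finsupp.single P₀ 1)
    rw [degree_add_nsmul_single H, hC, hbot, finrank_bot] at h1
    simp at h1)
  haveI hfin : Module.Finite K (L (C + n • Finsupp.single P₀ 1)) := finite_L H _
  have hge : 1 ≤ Module.finrank K (L (C + n • Finsupp.single P₀ 1)) := by
    rw [Nat.one_le_iff_ne_zero, Ne, Submodule.finrank_eq_zero]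
    exact hne
  have hle : Module.finrank K (L (C + n • Finsupp.single P₀ 1)) ≤ 1 := by
    rcases Nat.eq_zero_or_pos n with h0 | hpos
    · have hdeg : Divisor.degree (C + n • Finsupp.single P₀ 1) = 0 := by
        rw [degree_add_nsmul_single H, hC, h0]
        simp
      have h1 := finrank_L_le H (D := C + n • Finsupp.single P₀ 1) (by rw [hdeg])
      rw [hdeg, zero_add] at h1
      exact_mod_cast h1
    · obtain ⟨m, hm⟩ : ∃ m, n = m + 1 := ⟨n - 1, by omega⟩
      have hmin : ¬ L (C + m • Finsupp.single P₀ 1) ≠ ⊥ := Nat.find_min hex (by omega)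
      rw [not_not] at hmin
      have hstep := step_finrank P₀ (H.deg_one P₀) (C + m • Finsupp.single P₀ 1)
        (finite_L H _)
      have e : C + m • Finsupp.single P₀ 1 + Finsupp.single P₀ 1 =
          C + n • Finsupp.single P₀ 1 := by
        rw [hm, succ_nsmul, add_assoc]
      rw [e, hmin, finrank_bot] at hstep
      exact hstep.2
  obtain ⟨f, hf, hf0⟩ := (Submodule.ne_bot_iff _).mp hne
  obtain ⟨E, hE, hE0⟩ := H.principal f hf0
  refine ⟨n, C + n • Finsupp.single P₀ 1 + E, hng, ?_, ?_, ?_, ?_⟩
  · rw [Finsupp.le_def]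
    intro v
    rcases (mem_riemannRochSpace_iff.mp hf) v with h | h
    · exact absurd h hf0
    · rw [Finsupp.add_apply, hE v]
      simp only [Finsupp.coe_zero, Pi.zero_apply]
      omega
  · rw [map_add, degree_add_nsmul_single H, hC, hE0]
    simp
  · rw [finrank_L_add_principal H hf0 hE]
    omega
  · rw [add_sub_cancel_left]
    exact ⟨f, hf0, hE⟩

/-! ### Semilinear automorphisms -/

theorem smul_nonneg {φ : SemilinearAut K F} {D : Divisor K F} (hD : 0 ≤ D) : 0 ≤ φ • D := by
  rw [Finsupp.le_def]
  intro w
  rw [SemilinearAut.divisor_smul_apply]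
  exact Finsupp.le_def.mp hD _

/-- The effective representative of a `φ`-fixed class is `φ`-fixed. -/
theorem smul_eq_of_finrank_eq_one (φ : SemilinearAut K F) {P₀ : Place K F}
    (hP₀ : φ • P₀ = P₀) {C D : Divisor K F} {n : ℕ} (hD : 0 ≤ D)
    (hl : Module.finrank K (L D) = 1)
    (hDC : D - (C + n • Finsupp.single P₀ 1) ∈ Divisor.principal (K := K) (F := F))
    (hC : φ • C - C ∈ Divisor.principal (K := K) (F := F)) : φ • D = D := by
  refine eq_of_finrank_eq_one hD (smul_nonneg hD) hl ?_
  have h1 := SemilinearAut.smul_mem_principal φ hDC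
  have e : φ • D - D = φ • (D - (C + n • Finsupp.single P₀ 1)) -
      (D - (C + n • Finsupp.single P₀ 1)) + (φ • C - C) := by
    rw [smul_sub, smul_add, smul_comm φ n, SemilinearAut.smul_single, hP₀]
    abel
  rw [e]
  exact AddSubgroup.add_mem _ (AddSubgroup.sub_mem _ h1 hDC) hC

/-! ### Finiteness of the fixed places -/

theorem finite_ord_ne_zero (H : Hyp K F) {f : F} (hf : f ≠ 0) :
    {P : Place K F | P.ord f ≠ 0}.Finite := by
  obtain ⟨D, hD, -⟩ := H.principal f hf
  refine (D.support.finite_toSet).subset fun P hP => ?_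
  rw [Finset.mem_coe, Finsupp.mem_support_iff, hD P]
  exact hP

theorem baseAut_pow (φ : SemilinearAut K F) (m : ℕ) :
    SemilinearAut.baseAut (φ ^ m) = SemilinearAut.baseAut φ ^ m := by
  induction m with
  | zero => simp
  | succ m ih => rw [pow_succ, pow_succ, SemilinearAut.baseAut_mul, ih]

theorem pow_smul_eq_self {φ : SemilinearAut K F} {x : F} (hφx : φ • x = x) (m : ℕ) :
    φ ^ m • x = x := by
  induction m with
  | zero => simp
  | succ m ih => rw [pow_succ, mul_smul, hφx, ih]

/-- A semilinear automorphism which fixes a transcendental element and has finitely many fixed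
constants fixes only finitely many places. -/
theorem finite_fixed_places (H : Hyp K F) (ψ : SemilinearAut K F) {x : F}
    (hx : Transcendental K x) (hψx : ψ • x = x)
    (hfix : {a : K | SemilinearAut.baseAut ψ a = a}.Finite) :
    {P : Place K F | ψ • P = P}.Finite := by
  have hxa : ∀ a : K, x - algebraMap K F a ≠ 0 := by
    intro a h0
    apply hx
    rw [sub_eq_zero.mp h0]
    exact isAlgebraic_algebraMap a
  have hx0 : x ≠ 0 := by
    have := hxa 0
    simpa using this
  have hT : ({P : Place K F | P.ord x ≠ 0} ∪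
      ⋃ a ∈ {a : K | SemilinearAut.baseAut ψ a = a},
        {P : Place K F | P.ord (x - algebraMap K F a) ≠ 0}).Finite :=
    (finite_ord_ne_zero H hx0).union
      (hfix.biUnion fun a _ => finite_ord_ne_zero H (hxa a))
  refine hT.subset fun P hP => ?_
  have hP' : ψ • P = P := hP
  by_cases hneg : P.ord x < 0
  · left
    show P.ord x ≠ 0
    omega
  · right
    have hle : P.adicValuation x ≤ 1 := (adicValuation_le_one_iff_ord hx0).mpr (by omega)
    obtain ⟨a, ha⟩ := exists_const_sub_lt_one P (H.deg_one P) hle
    have hord : 0 < P.ord (x - algebraMap K F a) := (adicValuation_lt_one_iff_ord (hxa a)).mp ha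
    have hψ : ψ • (x - algebraMap K F a) =
        x - algebraMap K F (SemilinearAut.baseAut ψ a) := by
      rw [smul_sub, hψx, SemilinearAut.smul_algebraMap]
    have hord2 : 0 < P.ord (x - algebraMap K F (SemilinearAut.baseAut ψ a)) := by
      have h1 := SemilinearAut.ord_smul ψ P (x - algebraMap K F a)
      rw [hP', hψ] at h1
      rw [h1]
      exact hord
    have ha2 : P.adicValuation (x - algebraMap K F (SemilinearAut.baseAut ψ a)) < 1 :=
      (adicValuation_lt_one_iff_ord (hxa _)).mpr hord2
    have hfixa : SemilinearAut.baseAut ψ a = a := by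
      by_contra hne
      have hne' : SemilinearAut.baseAut ψ a - a ≠ 0 := sub_ne_zero.mpr hne
      have h1 := adicValuation_algebraMap P hne'
      have e : algebraMap K F (SemilinearAut.baseAut ψ a - a) =
          (x - algebraMap K F a) - (x - algebraMap K F (SemilinearAut.baseAut ψ a)) := by
        rw [map_sub]
        ring
      rw [e] at h1
      have h2 := Valuation.map_sub P.adicValuation (x - algebraMap K F a)
        (x - algebraMap K F (SemilinearAut.baseAut ψ a))
      rw [h1] at h2
      exact absurd h2 (not_le.mpr (max_lt ha ha2))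
    refine Set.mem_biUnion (x := a) hfixa ?_
    show P.ord (x - algebraMap K F a) ≠ 0
    omega

/-! ### Finiteness of the fixed effective divisors -/

theorem degree_eq_sum (H : Hyp K F) (D : Divisor K F) :
    Divisor.degree D = ∑ v ∈ D.support, D v := by
  have h : Divisor.degree D = D.sum fun v n => n * (v.deg : ℤ) := by
    simp [Divisor.degree, Finsupp.liftAddHom_apply]
  rw [h, Finsupp.sum]
  refine Finset.sum_congr rfl fun v _ => ?_
  rw [H.deg_one v]
  simp

theorem pow_smul_divisor_eq {φ : SemilinearAut K F} {D : Divisor K F} (hD : φ • D = D)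
    (m : ℕ) : φ ^ m • D = D := by
  induction m with
  | zero => simp
  | succ m ih => rw [pow_succ, mul_smul, hD, ih]

/-- The `φ`-fixed effective divisors of a given degree form a finite set. -/
theorem finite_fixed_effective (H : Hyp K F) (φ : SemilinearAut K F) {x : F}
    (hx : Transcendental K x) (hφx : φ • x = x)
    (hfix : ∀ m : ℕ, 0 < m → {a : K | (SemilinearAut.baseAut φ ^ m) a = a}.Finite) (n : ℕ) :
    {D : Divisor K F | 0 ≤ D ∧ Divisor.degree D = n ∧ φ • D = D}.Finite := by
  classical
  have hT : (⋃ m ∈ (Finset.Icc 1 n : Finset ℕ), {P : Place K F | φ ^ m • P = P}).Finite := by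
    refine Set.Finite.biUnion (Finset.finite_toSet _) fun m hm => ?_
    have hm1 : 0 < m := by
      have := Finset.mem_Icc.mp hm
      omega
    refine finite_fixed_places H (φ ^ m) hx (pow_smul_eq_self hφx m) ?_
    rw [baseAut_pow]
    exact hfix m hm1
  refine (Finset.finite_toSet (hT.toFinset.finsupp fun _ => Finset.Icc (0 : ℤ) n)).subset ?_
  rintro D ⟨hD0, hDn, hDφ⟩
  have hpos : ∀ v, 0 ≤ D v := fun v => by
    have := Finsupp.le_def.mp hD0 v
    simpa using this
  have hsum := degree_eq_sum H D
  rw [hDn] at hsum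
  have hcard : (D.support.card : ℤ) ≤ n := by
    rw [hsum]
    have : (D.support.card : ℤ) = ∑ _v ∈ D.support, (1 : ℤ) := by simp
    rw [this]
    refine Finset.sum_le_sum fun v hv => ?_
    have h1 := hpos v
    have h2 := Finsupp.mem_support_iff.mp hv
    omega
  rw [Finset.mem_coe, Finset.mem_finsupp_iff]
  constructor
  · intro P hP
    rw [Set.Finite.mem_toFinset]
    -- the orbit of `P` lies in the support
    have horb : ∀ i : ℕ, φ ^ i • P ∈ D.support := by
      intro i
      rw [Finsupp.mem_support_iff]
      have h1 := SemilinearAut.divisor_smul_apply_smul (φ ^ i) D P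
      rw [pow_smul_divisor_eq hDφ i] at h1
      rw [h1]
      exact Finsupp.mem_support_iff.mp hP
    have hlt : D.support.card < (Finset.range (n + 1)).card := by
      rw [Finset.card_range]
      have : (D.support.card : ℤ) < n + 1 := by omega
      exact_mod_cast this
    obtain ⟨i, hi, j, hj, hij, hPij⟩ := Finset.exists_ne_map_eq_of_card_lt_of_maps_to hlt
      (f := fun i => φ ^ i • P) (fun i _ => horb i)
    rw [Finset.mem_range] at hi hj
    -- WLOG `i < j`
    have key : ∀ i j : ℕ, i < j → j < n + 1 → φ ^ i • P = φ ^ j • P →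
        P ∈ ⋃ m ∈ (Finset.Icc 1 n : Finset ℕ), {P : Place K F | φ ^ m • P = P} := by
      intro i j hlt hjn h
      have e : φ ^ j = φ ^ i * φ ^ (j - i) := by
        rw [← pow_add]
        congr 1
        omega
      rw [e, mul_smul] at h
      have h' := MulAction.injective (φ ^ i) h
      refine Set.mem_biUnion (x := j - i) ?_ h'.symm
      rw [Finset.mem_coe, Finset.mem_Icc]
      omega
    rcases lt_or_gt_of_ne hij with h | h
    · exact key i j h hj hPij
    · exact key j i h hi hPij.symm
  · intro P _
    rw [Finset.mem_Icc]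
    refine ⟨hpos P, ?_⟩
    by_cases hP : P ∈ D.support
    · rw [hsum]
      exact Finset.single_le_sum (f := fun v => D v) (fun v _ => hpos v) hP
    · rw [Finsupp.notMem_support_iff.mp hP]
      positivity

/-! ### The finiteness theorem -/

/-- **FIN**: the classes of degree `0` which are fixed by `φ` form a finite set. -/
theorem fin_fixed (H : Hyp K F) (g : ℕ)
    (hg : ∀ D : Divisor K F, Divisor.degree D + 1 - g ≤ (Module.finrank K (L D) : ℤ))
    (φ : SemilinearAut K F) (P₀ : Place K F) (hP₀ : φ • P₀ = P₀) {x : F}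
    (hx : Transcendental K x) (hφx : φ • x = x)
    (hfix : ∀ m : ℕ, 0 < m → {a : K | (SemilinearAut.baseAut φ ^ m) a = a}.Finite) :
    {c : Pic K F | ∃ C : Divisor K F, Divisor.degree C = 0 ∧
      φ • C - C ∈ Divisor.principal (K := K) (F := F) ∧ c = QuotientAddGroup.mk C}.Finite := by
  have hfin : (⋃ n ∈ (Finset.range (g + 1) : Finset ℕ),
      (fun D : Divisor K F => (QuotientAddGroup.mk (D - n • Finsupp.single P₀ 1) : Pic K F)) ''
        {D : Divisor K F | 0 ≤ D ∧ Divisor.degree D = n ∧ φ • D = D}).Finite :=
    Set.Finite.biUnion (Finset.finite_toSet _) fun n _ =>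
      (finite_fixed_effective H φ hx hφx hfix n).image _
  refine hfin.subset ?_
  rintro c ⟨C, hC0, hCφ, rfl⟩
  obtain ⟨n, D, hng, hD0, hDn, hl, hDC⟩ := exists_effective H g hg P₀ C hC0
  have hDφ := smul_eq_of_finrank_eq_one φ hP₀ hD0 hl hDC hCφ
  refine Set.mem_biUnion (x := n) (by rw [Finset.mem_coe, Finset.mem_range]; omega) ?_
  refine ⟨D, ⟨hD0, hDn, hDφ⟩, ?_⟩
  show (QuotientAddGroup.mk (D - n • Finsupp.single P₀ 1) : Pic K F) = QuotientAddGroup.mk C
  rw [QuotientAddGroup.eq]
  have e : -(D - n • Finsupp.single P₀ 1) + C = -(D - (C + n • Finsupp.single P₀ 1)) := by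
    abel
  rw [e]
  exact AddSubgroup.neg_mem _ hDC

end Fermat.Agent.S15.FG.H11
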