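/-
S15, leaf FG (helper11), part 2: assembly `Stmt_FGbridge p → Stmt_redFG p`.
-/
import Fermat.Agent.S15.FG.Defs
import Fermat.Agent.S15.FG.H11_Fin
import Fermat.Agent.RED.H42_RiemannFinal
import Fermat.Agent.S18.Final

set_option autoImplicit false
set_option synthInstance.maxHeartbeats 400000
set_option maxHeartbeats 1000000

noncomputable section

open AlgebraicCurve ModularCurve Fermat.Agent.S28.H73 Fermat.Agent.RED Fermat.Agent.RED.H73

namespace Fermat.Agent.S15.FG.H11

section Abs

variable {K F : Type*} [Field K] [Field F] [Algebra K F]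

/-- The natural map `Pic⁰ → Pic`. -/
def pic0ToPic : Pic0 K F →+ Pic K F :=
  QuotientAddGroup.map _ _ (Divisor.degZero (K := K) (F := F)).subtype (by
    intro D hD
    exact hD)

theorem pic0ToPic_mk (D : Divisor.degZero (K := K) (F := F)) :
    pic0ToPic (Pic0.mk D) = QuotientAddGroup.mk (D : Divisor K F) := rfl

theorem pic0ToPic_injective : Function.Injective (pic0ToPic (K := K) (F := F)) := by
  rw [injective_iff_map_eq_zero]
  intro x hx
  obtain ⟨D, rfl⟩ := Pic0.mk_surjective x
  rw [pic0ToPic_mk, QuotientAddGroup.eq_zero_iff] at hx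
  exact (QuotientAddGroup.eq_zero_iff _).mpr hx

/-- The fixed points of the `m`-th power of `a ↦ a ^ q` form a finite set. -/
theorem finite_fixed_pow {s : K ≃+* K} {q : ℕ} (hq : 2 ≤ q) (hs : ∀ a : K, s a = a ^ q)
    (m : ℕ) (hm : 0 < m) : {a : K | (s ^ m) a = a}.Finite := by
  classical
  have hsm : ∀ (m : ℕ) (a : K), (s ^ m) a = a ^ (q ^ m) := by
    intro m
    induction m with
    | zero => intro a; simp
    | succ m ih =>
      intro a
      rw [pow_succ', RingAut.mul_apply, ih, hs, ← pow_mul, pow_succ]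
  have hlt : 1 < q ^ m := Nat.one_lt_pow hm.ne' (by omega)
  have hpoly : (Polynomial.X ^ (q ^ m) - Polynomial.X : Polynomial K) ≠ 0 := by
    intro h0
    have h1 := congrArg (fun p => Polynomial.coeff p 1) h0
    simp only [Polynomial.coeff_sub, Polynomial.coeff_X_pow, Polynomial.coeff_X_one,
      Polynomial.coeff_zero] at h1
    rw [if_neg (by omega)] at h1
    simp at h1
  refine ((Polynomial.X ^ (q ^ m) - Polynomial.X : Polynomial K).roots.toFinset.finite_toSet).subset
    fun a ha => ?_
  rw [Finset.mem_coe, Multiset.mem_toFinset, Polynomial.mem_roots hpoly]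
  have : a ^ (q ^ m) = a := by rw [← hsm]; exact ha
  simp [this]

end Abs

/-- **FG from the bridge.** -/
theorem stmt_redFG_of_bridge {p : ℕ} (hB : Stmt_FGbridge p) : Stmt_redFG p := by
  intro ℓ hℓ hℓp A hA
  classical
  by_cases h : ReductionInputsModL A p
  swap
  · rw [reductionModL_of_not h]
    have : AddSubgroup.map (0 : JZero p →+ JZeroC (IsLocalRing.ResidueField A) p) (ratPts p)
        = ⊥ := by
      ext y
      simp only [AddSubgroup.mem_map, AddMonoidHom.zero_apply, AddSubgroup.mem_bot]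
      constructor
      · rintro ⟨_, _, rfl⟩
        rfl
      · rintro rfl
        exact ⟨0, AddSubgroup.zero_mem _, rfl⟩
    rw [this]
    exact ⟨∅, by simp⟩
  haveI : IsAlgClosed (kV A) := isAlgClosed_kV A
  obtain ⟨hFF, φ, P₀, x, hφ, hP₀, hx, hφx, hfixD⟩ := hB ℓ hℓ hℓp A hA h
  have hFF' := hFF
  obtain ⟨x₀, hx₀, hfin₀⟩ := hFF'
  have H : H42.Hyp (kV A) ↥(modularFunctionFieldFullC (kV A) p) :=
    H42.hyp_of_zeros (H42.zerosAll _ _ hFF) hx₀
  obtain ⟨g, c, hg⟩ := H42.stmt_FFR_riemann _ _ hFF
  have hS := fin_fixed H g (fun D => (hg D).1) φ P₀ hP₀ hx hφx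
    (fun m hm => finite_fixed_pow hℓ.two_le hφ m hm)
  -- the image is finite
  have hsub : (pic0ToPic (K := kV A) (F := ↥(modularFunctionFieldFullC (kV A) p))) ''
      ((AddSubgroup.map (reductionModL A p) (ratPts p) : AddSubgroup _) : Set _) ⊆
      {c : Pic (kV A) ↥(modularFunctionFieldFullC (kV A) p) |
        ∃ C : Divisor (kV A) ↥(modularFunctionFieldFullC (kV A) p), Divisor.degree C = 0 ∧
          φ • C - C ∈ Divisor.principal (K := kV A)
            (F := ↥(modularFunctionFieldFullC (kV A) p)) ∧ c = QuotientAddGroup.mk C} := by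
    rintro _ ⟨y, ⟨z, hz, rfl⟩, rfl⟩
    obtain ⟨D, rfl⟩ := Pic0.mk_surjective z
    rw [reductionModL_mk h D, pic0ToPic_mk]
    refine ⟨_, ?_, hfixD D hz, rfl⟩
    exact Divisor.mem_degZero.mp (reductionDegZeroAlong (placeReductionModL h)
      (isPlaceReductionModL_placeReductionModL h).1 D).2
  have hfinite : ((AddSubgroup.map (reductionModL A p) (ratPts p) : AddSubgroup _) :
      Set (JZeroC (IsLocalRing.ResidueField A) p)).Finite :=
    Set.Finite.of_finite_image (hS.subset hsub) pic0ToPic_injective.injOn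
  haveI : Finite ↥(AddSubgroup.map (reductionModL A p) (ratPts p)) := hfinite.to_subtype
  exact (AddGroup.fg_iff_addSubgroup_fg _).mp AddGroup.fg_of_finite

end Fermat.Agent.S15.FG.H11
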