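/-
S15, leaf FG (helper11), part 3: the bridge `Stmt_FGbridge p` (`p` prime) and the final
`stmt_redFG : p.Prime → Stmt_redFG p`.

The place reduction `r₀` hidden in `reductionModL` takes values in the places of
`k(j(q^d) : d ∣ p)`, which IS the reduced field (helper73, `stmt_GA`); `r₀` has the conservation
law (helper51, `isRed_of_good`), hence it is equivariant under the decomposition group of `A`
(helper33, `isRed_decomposition`).  For `σ₀` a Frobenius element at `A` the semilinear
automorphism `φ = redGalois σ₀` of the reduced field acts on the coefficients by `a ↦ a ^ ℓ`; it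
fixes `j~` and the `q`-order place.
-/
import Fermat.Agent.S15.FG.H11_Asm
import Fermat.Agent.RED.H51_HR
import Fermat.Agent.RED.H36_EQ
import Fermat.Agent.Lib.FrobExists
import Fermat.Agent.RED.KD.H22_IsCusp

set_option autoImplicit false
set_option linter.style.haveILetI false
set_option synthInstance.maxHeartbeats 400000
set_option maxHeartbeats 1000000

noncomputable section

open AlgebraicCurve ModularCurve Fermat.Agent.S28.H73 Fermat.Agent.RED Fermat.Agent.RED.H73

namespace Fermat.Agent.S15.FG.H11

/-- An injective coefficient map preserves the order of a Laurent series. -/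
theorem order_coeffMap_of_injective {R S : Type*} [CommRing R] [CommRing S] (f : R →+* S)
    (hf : Function.Injective f) (x : LaurentSeries R) : (coeffMap f x).order = x.order := by
  by_cases hx : x = 0
  · rw [hx, map_zero, HahnSeries.order_zero, HahnSeries.order_zero]
  have hx' : coeffMap f x ≠ 0 := by
    intro h
    apply hx
    ext n
    have := congrArg (fun y => HahnSeries.coeff y n) h
    simp only [coeffMap_coeff, HahnSeries.coeff_zero] at this
    rw [HahnSeries.coeff_zero]
    exact hf (this.trans (map_zero f).symm)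
  apply le_antisymm
  · apply HahnSeries.order_le_of_coeff_ne_zero
    rw [coeffMap_coeff]
    intro h
    exact hx (HahnSeries.coeff_order_eq_zero.mp (hf (h.trans (map_zero f).symm)))
  · apply HahnSeries.order_le_of_coeff_ne_zero
    intro h
    apply hx'
    apply HahnSeries.coeff_order_eq_zero.mp
    rw [coeffMap_coeff, h, map_zero]

theorem jqModC_order_neg_one (k : Type) [Field k] : (jqModC k).order = -1 := by
  have h := JL_order k 1
  have e : JL k 1 = jqModC k := qExpand_one_apply _
  rw [e] at h
  rw [h]
  norm_num

section Transport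

variable (N ℓ : ℕ) [NeZero N]

/-- **Transport**: for a map `r₀` of places with values in the places of a field `E` which IS the
reduced field, and with the existential form of the conservation law, there is a Frobenius `φ`
of `E` such that the reductions of Galois-stable divisor classes are `φ`-stable. -/
theorem fg_transport (hℓ : ℓ.Prime) (hℓN : ¬ ℓ ∣ N)
    (A : ValuationSubring (AlgebraicClosure ℚ)) (hA : A.LiesOverPrime ℓ)
    (E : IntermediateField (kV A) (LaurentSeries (kV A)))
    (e : redField A (modularFunctionFieldBar N) (hasScale_laurentBaseChange A N) = E)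
    (hj : jqModC (kV A) ∈ E)
    (r₀ : Place (AlgebraicClosure ℚ) ↥(modularFunctionFieldBar N) → Place (kV A) ↥E)
    (hgood : ∀ D : Divisor (AlgebraicClosure ℚ) ↥(modularFunctionFieldBar N), D.IsPrincipal →
      ∃ (x : ↥(gaussValSub A (modularFunctionFieldBar N) (hasScale_laurentBaseChange A N)))
        (xb : ↥E), IsUnit x ∧
        gaussResF A (hasScale_laurentBaseChange A N) x = (xb : LaurentSeries (kV A)) ∧
        (∀ P, D P = P.ord (x : ↥(modularFunctionFieldBar N))) ∧
        (∀ Q, Finsupp.mapDomain r₀ D Q = Q.ord xb)) :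
    IsFF (kV A) ↥E ∧
    ∃ (φ : SemilinearAut (kV A) ↥E) (P₀ : Place (kV A) ↥E) (x : ↥E),
      (∀ a : kV A, SemilinearAut.baseAut φ a = a ^ ℓ) ∧ φ • P₀ = P₀ ∧
      Transcendental (kV A) x ∧ φ • x = x ∧
      ∀ D : Divisor (AlgebraicClosure ℚ) ↥(modularFunctionFieldBar N),
        (∀ σ : AlgebraicClosure ℚ ≃ₐ[ℚ] AlgebraicClosure ℚ,
          arithmeticGalois (modularFunctionFieldFull N) σ • D - D ∈
            Divisor.principal (K := AlgebraicClosure ℚ) (F := ↥(modularFunctionFieldBar N))) →
        φ • Finsupp.mapDomain r₀ D - Finsupp.mapDomain r₀ D ∈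
          Divisor.principal (K := kV A) (F := ↥E) := by
  subst e
  haveI : IsAlgClosed (kV A) := isAlgClosed_kV A
  have hFF := H95.stmt_HKA_isFF N
  have hFt := isFF_redField_bar N ℓ hℓ hℓN A hA
  have hr₀ : IsRed A (hasScale_laurentBaseChange A N) r₀ := by
    refine H51.isRed_of_good A (hasScale_laurentBaseChange A N) hFF r₀ fun D' hD' => ?_
    obtain ⟨x, xb, hu, hx, hE, hQ⟩ := hgood D' hD'
    refine ⟨x, hu, hE, fun Q => ?_⟩
    rw [hQ Q]
    congr 1
    exact Subtype.ext hx.symm
  obtain ⟨σ₀, hσ₀⟩ := Fermat.Agent.Lib.FrobExists.exists_isFrobeniusAt ℓ hℓ A hA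
  have hdec := hσ₀.mem_decompositionSubgroup
  have hinj := H33.autkHom_injective A σ₀.toRingEquiv
    (H33.mem_iff_of_mem_decompositionSubgroup A hdec)
  have hcoe : ∀ y : ↥(redField A (modularFunctionFieldBar N) (hasScale_laurentBaseChange A N)),
      ((H33.redGalois A (modularFunctionFieldFull N) (hasScale_laurentBaseChange A N) σ₀ hdec • y :
          ↥(redField A (modularFunctionFieldBar N) (hasScale_laurentBaseChange A N))) :
        LaurentSeries (kV A)) =
      coeffMap (H33.autkHom A σ₀.toRingEquiv (H33.mem_iff_of_mem_decompositionSubgroup A hdec))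
        (y : LaurentSeries (kV A)) := fun y => rfl
  have hord : ∀ y : ↥(redField A (modularFunctionFieldBar N) (hasScale_laurentBaseChange A N)),
      ((H33.redGalois A (modularFunctionFieldFull N) (hasScale_laurentBaseChange A N) σ₀ hdec • y :
          ↥(redField A (modularFunctionFieldBar N) (hasScale_laurentBaseChange A N))) :
        LaurentSeries (kV A)).order = (y : LaurentSeries (kV A)).order := by
    intro y
    rw [hcoe y]
    exact order_coeffMap_of_injective _ hinj _
  refine ⟨hFt, H33.redGalois A (modularFunctionFieldFull N) (hasScale_laurentBaseChange A N)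
    σ₀ hdec, KD.H22.laurentPlace _ ⟨jqModC (kV A), hj⟩ (jqModC_order_neg_one (kV A)),
    ⟨jqModC (kV A), hj⟩, ?_, ?_, ?_, ?_, ?_⟩
  · intro a
    exact H33.autkHom_frobenius A hσ₀ a
  · apply Place.ext
    rw [SemilinearAut.smul_toValuationSubring]
    ext x
    rw [ValuationSubring.mem_pointwise_smul_iff_inv_smul_mem, KD.H22.mem_laurentPlace_iff,
      KD.H22.mem_laurentPlace_iff]
    have h1 := hord ((H33.redGalois A (modularFunctionFieldFull N)
      (hasScale_laurentBaseChange A N) σ₀ hdec)⁻¹ • x)
    rw [smul_inv_smul] at h1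
    rw [← h1]
    constructor
    · rintro (h | h)
      · left
        rwa [smul_eq_zero_iff_eq] at h
      · right
        exact h
    · rintro (h | h)
      · left
        rw [h, smul_zero]
      · right
        exact h
  · intro halg
    apply transcendental_jqModC (kV A)
    have := halg.algHom
      (redField A (modularFunctionFieldBar N) (hasScale_laurentBaseChange A N)).val
    exact this
  · apply Subtype.ext
    rw [hcoe]
    exact coeffMap_jqModC _
  · intro D hD
    have hgr : ∀ P : Place (AlgebraicClosure ℚ) ↥(modularFunctionFieldBar N),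
        r₀ (arithmeticGalois (modularFunctionFieldFull N) σ₀ • P)
          = H33.redGalois A (modularFunctionFieldFull N) (hasScale_laurentBaseChange A N)
              σ₀ hdec • r₀ P := fun P =>
      H33.isRed_decomposition A (modularFunctionFieldFull N)
        (hasScale_laurentBaseChange A N) hFF hFt (H42.fracScalable_laurentBaseChange A N)
        hdec hr₀ P
    have h1 := H36.mapDomain_smul_eq A (hasScale_laurentBaseChange A N)
      (arithmeticGalois (modularFunctionFieldFull N) σ₀) _ hgr D
    rw [← h1, ← Finsupp.mapDomain_sub]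
    exact H36.mapDomain_mem_principal A (hasScale_laurentBaseChange A N) hr₀ (hD σ₀)

end Transport

/-- **FG-BRIDGE**. -/
theorem stmt_FGbridge {p : ℕ} (hp : p.Prime) : Stmt_FGbridge p := by
  intro ℓ hℓ hℓp A hA h
  haveI : NeZero p := ⟨hp.ne_zero⟩
  have hℓN : ¬ ℓ ∣ p := fun hdvd => hℓp ((Nat.prime_dvd_prime_iff_eq hℓ hp).mp hdvd)
  obtain ⟨hFF, φ, P₀, x, h1, h2, h3, h4, h5⟩ := fg_transport p ℓ hℓ hℓN A hA _
    (stmt_GA p ℓ hℓ hℓN A hA) (jqModC_mem_full (kV A) p) (placeReductionModL h)
    (fun D' hD' => Fermat.Agent.S18.goodDiv_of_mem_principal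
      (isPlaceReductionModL_placeReductionModL h) h.choose_spec.2 hD')
  refine ⟨hFF, φ, P₀, x, h1, h2, h3, h4, fun D hD => h5 _ fun σ => ?_⟩
  have hσ := hD σ
  rw [galois_smul_pic0_def, SemilinearAut.pic0_smul_mk] at hσ
  have h6 := (QuotientAddGroup.eq_iff_sub_mem).mp hσ
  rw [AddSubgroup.mem_addSubgroupOf] at h6
  exact h6

/-- **FG**: the reduction modulo `ℓ ≠ p` of the rational points of `J₀(p)` is finitely
generated (it is finite). -/
theorem stmt_redFG {p : ℕ} (hp : p.Prime) : Stmt_redFG p :=
  stmt_redFG_of_bridge (stmt_FGbridge hp)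

end Fermat.Agent.S15.FG.H11
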